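/-
Program FF (S19) — the family layer, part 1: coordinates (helper13, prefix `fffm`).

* `fffmMu c v w`: the multiplication `L(i𝔡) × L(j𝔡) → L(k𝔡)` in coordinates, with structure
  constants `c`, over ANY commutative ring; the product matrix `fffmProd` (columns = products of the
  columns) and the colon matrix `fffmColon` (kernel = colon); all commute with ring homs.
* `FffmFib`: ONE fibre of the integral model: a function field `F / K` with the Riemann–Roch package,
  a level divisor `𝔡` of degree `≥ 5g`, bases `b i` of `L(i𝔡)` (`i = 1..5`) whose products are given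
  by the table `c`.
* `FffmRep fib i N A`: the columns of the matrix `N` (over the field `K`) span, in the coordinates
  of level `i`, the space `L(A)`.
* field-level meaning of the two operations (Khuri-Makdisi): `fffm_rep_prod` (`L(A)·L(A') = L(A+A')`),
  `fffm_rep_prod_one` (`s·L(Y) = L(Y - div s)`), `fffm_rep_colon` (`(L(C) : L(B)) = L(C - B)`).
-/
import Mathlib
import Fermat.Agent.FF.KMField

set_option autoImplicit false
set_option linter.unusedSectionVars false
set_option linter.unusedVariables false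

noncomputable section

namespace Fermat.Agent.FF

open AlgebraicCurve Module Fermat.Agent.V.RR Matrix

/-! ### multiplication in coordinates -/

section Mu

variable {B : Type*} [CommRing B] {ι₁ ι₂ ι₃ : Type*} [Fintype ι₁] [Fintype ι₂] [Fintype ι₃]
  {σ τ : Type*} [Fintype σ] [Fintype τ]

/-- multiplication in coordinates with the table `c` -/
def fffmMu (c : ι₁ → ι₂ → ι₃ → B) (v : ι₁ → B) (w : ι₂ → B) : ι₃ → B :=
  fun t => ∑ a, ∑ b, c a b t * v a * w b

theorem fffmMu_apply (c : ι₁ → ι₂ → ι₃ → B) (v : ι₁ → B) (w : ι₂ → B) (t : ι₃) :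
    fffmMu c v w t = ∑ a, ∑ b, c a b t * v a * w b := rfl

theorem fffmMu_add_left (c : ι₁ → ι₂ → ι₃ → B) (v v' : ι₁ → B) (w : ι₂ → B) :
    fffmMu c (v + v') w = fffmMu c v w + fffmMu c v' w := by
  funext t
  simp only [fffmMu, Pi.add_apply, mul_add, add_mul, Finset.sum_add_distrib]

theorem fffmMu_smul_left (c : ι₁ → ι₂ → ι₃ → B) (r : B) (v : ι₁ → B) (w : ι₂ → B) :
    fffmMu c (r • v) w = r • fffmMu c v w := by
  funext t
  simp only [fffmMu, Pi.smul_apply, smul_eq_mul, Finset.mul_sum]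
  exact Finset.sum_congr rfl fun a _ => Finset.sum_congr rfl fun b _ => by ring

theorem fffmMu_add_right (c : ι₁ → ι₂ → ι₃ → B) (v : ι₁ → B) (w w' : ι₂ → B) :
    fffmMu c v (w + w') = fffmMu c v w + fffmMu c v w' := by
  funext t
  simp only [fffmMu, Pi.add_apply, mul_add, Finset.sum_add_distrib]

theorem fffmMu_smul_right (c : ι₁ → ι₂ → ι₃ → B) (r : B) (v : ι₁ → B) (w : ι₂ → B) :
    fffmMu c v (r • w) = r • fffmMu c v w := by
  funext t
  simp only [fffmMu, Pi.smul_apply, smul_eq_mul, Finset.mul_sum]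
  exact Finset.sum_congr rfl fun a _ => Finset.sum_congr rfl fun b _ => by ring

/-- the multiplication as a bilinear map -/
def fffmMuL (c : ι₁ → ι₂ → ι₃ → B) : (ι₁ → B) →ₗ[B] (ι₂ → B) →ₗ[B] (ι₃ → B) :=
  LinearMap.mk₂ B (fffmMu c) (fffmMu_add_left c) (fffmMu_smul_left c) (fffmMu_add_right c)
    (fffmMu_smul_right c)

@[simp] theorem fffmMuL_apply (c : ι₁ → ι₂ → ι₃ → B) (v : ι₁ → B) (w : ι₂ → B) :
    fffmMuL c v w = fffmMu c v w := rfl

theorem fffmMu_map {B' : Type*} [CommRing B'] (φ : B →+* B') (c : ι₁ → ι₂ → ι₃ → B)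
    (v : ι₁ → B) (w : ι₂ → B) (t : ι₃) :
    φ (fffmMu c v w t) =
      fffmMu (fun a b t => φ (c a b t)) (fun a => φ (v a)) (fun b => φ (w b)) t := by
  simp only [fffmMu, map_sum, map_mul]

/-- the product matrix: its columns are the products of the columns of `N` and `N'` -/
def fffmProd (c : ι₁ → ι₂ → ι₃ → B) (N : Matrix ι₁ σ B) (N' : Matrix ι₂ τ B) :
    Matrix ι₃ (σ × τ) B :=
  Matrix.of fun t ab => fffmMu c (fun a => N a ab.1) (fun b => N' b ab.2) t

theorem fffmProd_col (c : ι₁ → ι₂ → ι₃ → B) (N : Matrix ι₁ σ B) (N' : Matrix ι₂ τ B)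
    (ab : σ × τ) : (fffmProd c N N').col ab = fffmMu c (N.col ab.1) (N'.col ab.2) := rfl

theorem fffmProd_map {B' : Type*} [CommRing B'] (φ : B →+* B') (c : ι₁ → ι₂ → ι₃ → B)
    (N : Matrix ι₁ σ B) (N' : Matrix ι₂ τ B) :
    (fffmProd c N N').map φ = fffmProd (fun a b t => φ (c a b t)) (N.map φ) (N'.map φ) := by
  ext t ab
  simp only [Matrix.map_apply, fffmProd, Matrix.of_apply]
  exact fffmMu_map φ c _ _ t

/-- the colon matrix: `v` is in its kernel iff `Q (v * N'_b) = 0` for every column `N'_b` -/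
def fffmColon (c : ι₁ → ι₂ → ι₃ → B) (Q : Matrix ι₃ ι₃ B) (N' : Matrix ι₂ τ B) :
    Matrix (τ × ι₃) ι₁ B :=
  Matrix.of fun bt a => ∑ t', Q bt.2 t' * ∑ b, c a b t' * N' b bt.1

theorem fffmColon_mulVec (c : ι₁ → ι₂ → ι₃ → B) (Q : Matrix ι₃ ι₃ B) (N' : Matrix ι₂ τ B)
    (v : ι₁ → B) (bt : τ × ι₃) :
    (fffmColon c Q N' *ᵥ v) bt = (Q *ᵥ fffmMu c v (N'.col bt.1)) bt.2 := by
  simp only [Matrix.mulVec, dotProduct, fffmColon, Matrix.of_apply, fffmMu, Finset.sum_mul,
    Finset.mul_sum, Matrix.col_apply]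
  rw [Finset.sum_comm]
  refine Finset.sum_congr rfl fun t' _ => Finset.sum_congr rfl fun a _ =>
    Finset.sum_congr rfl fun b _ => by ring

theorem fffmColon_map {B' : Type*} [CommRing B'] (φ : B →+* B') (c : ι₁ → ι₂ → ι₃ → B)
    (Q : Matrix ι₃ ι₃ B) (N' : Matrix ι₂ τ B) :
    (fffmColon c Q N').map φ = fffmColon (fun a b t => φ (c a b t)) (Q.map φ) (N'.map φ) := by
  ext bt a
  simp only [Matrix.map_apply, fffmColon, Matrix.of_apply, map_sum, map_mul]

/-- the kernel of the colon matrix -/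
theorem fffm_mem_ker_colon (c : ι₁ → ι₂ → ι₃ → B) (Q : Matrix ι₃ ι₃ B) (N' : Matrix ι₂ τ B)
    (v : ι₁ → B) :
    v ∈ LinearMap.ker (fffmColon c Q N').mulVecLin ↔
      ∀ b : τ, fffmMu c v (N'.col b) ∈ LinearMap.ker Q.mulVecLin := by
  simp only [LinearMap.mem_ker, Matrix.mulVecLin_apply]
  constructor
  · intro h b
    funext t
    have := congrFun h (b, t)
    rw [fffmColon_mulVec] at this
    exact this
  · intro h
    funext bt
    rw [fffmColon_mulVec, h bt.1]
    rfl

/-- for an idempotent matrix `P`, `ker (1 - P) = range P` -/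
theorem fffm_ker_one_sub {n : Type*} [Fintype n] [DecidableEq n] (P : Matrix n n B)
    (hP : P * P = P) :
    LinearMap.ker (1 - P).mulVecLin = LinearMap.range P.mulVecLin := by
  ext v
  simp only [LinearMap.mem_ker, LinearMap.mem_range, Matrix.mulVecLin_apply, Matrix.sub_mulVec,
    Matrix.one_mulVec, sub_eq_zero]
  constructor
  · intro h
    exact ⟨v, h.symm⟩
  · rintro ⟨w, rfl⟩
    rw [Matrix.mulVec_mulVec, hP]

end Mu

/-! ### one fibre of the integral model -/

section Fib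

variable {ι : ℕ → Type} [∀ i, Fintype (ι i)] {K F : Type*} [Field K] [Field F] [Algebra K F]
  {g : ℕ} {c : ∀ i j k : ℕ, ι i → ι j → ι k → K}

/-- one fibre of the integral model: Riemann–Roch, the level divisor `𝔡` (`deg ≥ 5g`), bases of
`L(i𝔡)` for `i = 1..5`, multiplication given by the table `c` -/
structure FffmFib (ι : ℕ → Type) [∀ i, Fintype (ι i)] (K F : Type*) [Field K] [Field F]
    [Algebra K F] (g : ℕ) (c : ∀ i j k : ℕ, ι i → ι j → ι k → K) where
  RR : V27RR K F g
  inf : Infinite K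
  hdeg1 : ∀ v : Place K F, v.deg = 1
  dd : Divisor K F
  hdd : 5 * (g : ℤ) ≤ Divisor.degree dd
  b : ∀ i, ι i → F
  li : ∀ i, 1 ≤ i → i ≤ 5 → LinearIndependent K (b i)
  span : ∀ i, 1 ≤ i → i ≤ 5 → Submodule.span K (Set.range (b i)) = riemannRochSpace (i • dd)
  mul : ∀ i j k, k = i + j → 1 ≤ i → 1 ≤ j → k ≤ 5 → ∀ p q,
    b i p * b j q = ∑ s, c i j k p q s • b k s

variable (fib : FffmFib ι K F g c)

/-- the realization of coordinates of level `i` -/
def FffmFib.real (i : ℕ) : (ι i → K) →ₗ[K] F := Fintype.linearCombination K (fib.b i)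

theorem FffmFib.real_apply (i : ℕ) (v : ι i → K) : fib.real i v = ∑ p, v p • fib.b i p :=
  Fintype.linearCombination_apply K _ v

theorem FffmFib.real_injective {i : ℕ} (h1 : 1 ≤ i) (h5 : i ≤ 5) :
    Function.Injective (fib.real i) :=
  linearIndependent_iff_injective_fintypeLinearCombination.mp (fib.li i h1 h5)

theorem FffmFib.range_real {i : ℕ} (h1 : 1 ≤ i) (h5 : i ≤ 5) :
    LinearMap.range (fib.real i) = riemannRochSpace (i • fib.dd) := by
  rw [FffmFib.real, Fintype.range_linearCombination, fib.span i h1 h5]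

/-- the realization is multiplicative -/
theorem FffmFib.real_mu {i j k : ℕ} (hk : k = i + j) (hi : 1 ≤ i) (hj : 1 ≤ j) (h5 : k ≤ 5)
    (v : ι i → K) (w : ι j → K) :
    fib.real k (fffmMu (c i j k) v w) = fib.real i v * fib.real j w := by
  rw [fib.real_apply, fib.real_apply, fib.real_apply, Finset.sum_mul_sum]
  have h1 : ∀ p q, (v p • fib.b i p) * (w q • fib.b j q) =
      ∑ s, (c i j k p q s * v p * w q) • fib.b k s := by
    intro p q
    rw [smul_mul_smul_comm, fib.mul i j k hk hi hj h5 p q, Finset.smul_sum]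
    refine Finset.sum_congr rfl fun s _ => ?_
    rw [smul_smul]
    congr 1
    ring
  simp only [h1, fffmMu_apply, Finset.sum_smul]
  rw [Finset.sum_comm]
  refine Finset.sum_congr rfl fun p _ => ?_
  rw [Finset.sum_comm]

/-- the columns of `N` span `L(A)` in the coordinates of level `i` -/
def FffmRep (i : ℕ) {σ : Type*} [Fintype σ] (N : Matrix (ι i) σ K) (A : Divisor K F) : Prop :=
  (LinearMap.range N.mulVecLin).map (fib.real i) = riemannRochSpace A

theorem FffmRep.of_range_eq {i : ℕ} {σ τ : Type*} [Fintype σ] [Fintype τ]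
    {N : Matrix (ι i) σ K} {N' : Matrix (ι i) τ K} {A : Divisor K F} (h : FffmRep fib i N A)
    (hr : LinearMap.range N'.mulVecLin = LinearMap.range N.mulVecLin) : FffmRep fib i N' A := by
  rw [FffmRep, hr]
  exact h

/-- rank of a representing matrix -/
theorem fffm_rep_rank {i : ℕ} (h1 : 1 ≤ i) (h5 : i ≤ 5) {σ : Type*} [Fintype σ]
    {N : Matrix (ι i) σ K} {A : Divisor K F} (h : FffmRep fib i N A) :
    N.rank = finrank K (riemannRochSpace A) := by
  rw [Matrix.rank, ← h]
  exact (Submodule.equivMapOfInjective (fib.real i) (fib.real_injective h1 h5) _).finrank_eq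

/-- dimension of a represented kernel -/
theorem fffm_ker_finrank {i : ℕ} (h1 : 1 ≤ i) (h5 : i ≤ 5) {σ : Type*} [Fintype σ]
    {N : Matrix σ (ι i) K} {A : Divisor K F}
    (h : (LinearMap.ker N.mulVecLin).map (fib.real i) = riemannRochSpace A) :
    finrank K (LinearMap.ker N.mulVecLin) = finrank K (riemannRochSpace A) := by
  rw [← h]
  exact (Submodule.equivMapOfInjective (fib.real i) (fib.real_injective h1 h5) _).finrank_eq

/-- rank–nullity for matrices -/
theorem fffm_rank_add_finrank_ker {m n : Type*} [Fintype m] [Fintype n] (N : Matrix m n K) :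
    N.rank + finrank K (LinearMap.ker N.mulVecLin) = Fintype.card n := by
  rw [Matrix.rank, LinearMap.finrank_range_add_finrank_ker, Module.finrank_fintype_fun_eq_card]

theorem fffm_rep_le {i : ℕ} (h1 : 1 ≤ i) (h5 : i ≤ 5) {σ : Type*} [Fintype σ]
    {N : Matrix (ι i) σ K} {A : Divisor K F} (h : FffmRep fib i N A) :
    riemannRochSpace A ≤ riemannRochSpace (i • fib.dd) := by
  rw [← h, ← fib.range_real h1 h5]
  rintro _ ⟨v, -, rfl⟩
  exact LinearMap.mem_range_self _ v

/-- the identity matrix represents the full level -/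
theorem fffm_rep_one [∀ i, DecidableEq (ι i)] {i : ℕ} (h1 : 1 ≤ i) (h5 : i ≤ 5) :
    FffmRep fib i (1 : Matrix (ι i) (ι i) K) (i • fib.dd) := by
  rw [FffmRep, Matrix.mulVecLin_one, LinearMap.range_id, Submodule.map_top, fib.range_real h1 h5]

/-- membership in a represented kernel -/
theorem fffm_mem_ker_iff {k : ℕ} (h1 : 1 ≤ k) (h5 : k ≤ 5) {σ : Type*} [Fintype σ]
    {Q : Matrix σ (ι k) K} {C : Divisor K F}
    (hQ : (LinearMap.ker Q.mulVecLin).map (fib.real k) = riemannRochSpace C) (w : ι k → K) :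
    w ∈ LinearMap.ker Q.mulVecLin ↔ fib.real k w ∈ riemannRochSpace C := by
  rw [← hQ]
  constructor
  · intro hw
    exact ⟨w, hw, rfl⟩
  · rintro ⟨w', hw', h⟩
    rwa [← fib.real_injective h1 h5 h]

/-- the realization of the range of the product matrix is the product of the realizations -/
theorem fffm_map_range_prod {i j k : ℕ} (hk : k = i + j) (hi : 1 ≤ i) (hj : 1 ≤ j) (h5 : k ≤ 5)
    {σ τ : Type*} [Fintype σ] [Fintype τ] (N : Matrix (ι i) σ K) (N' : Matrix (ι j) τ K) :
    (LinearMap.range (fffmProd (c i j k) N N').mulVecLin).map (fib.real k) =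
      (LinearMap.range N.mulVecLin).map (fib.real i) *
        (LinearMap.range N'.mulVecLin).map (fib.real j) := by
  rw [Matrix.range_mulVecLin, Matrix.range_mulVecLin, Matrix.range_mulVecLin, Submodule.map_span,
    Submodule.map_span, Submodule.map_span, Submodule.span_mul_span]
  congr 1
  ext f
  constructor
  · rintro ⟨_, ⟨ab, rfl⟩, rfl⟩
    rw [fffmProd_col, fib.real_mu hk hi hj h5]
    exact Set.mul_mem_mul ⟨_, ⟨ab.1, rfl⟩, rfl⟩ ⟨_, ⟨ab.2, rfl⟩, rfl⟩
  · rintro ⟨_, ⟨_, ⟨a, rfl⟩, rfl⟩, _, ⟨_, ⟨b, rfl⟩, rfl⟩, rfl⟩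
    exact ⟨_, ⟨(a, b), rfl⟩, by rw [fffmProd_col, fib.real_mu hk hi hj h5]⟩

/-- **product step** (field level): `L(A)·L(A') = L(A + A')` -/
theorem fffm_rep_prod {i j k : ℕ} (hk : k = i + j) (hi : 1 ≤ i) (hj : 1 ≤ j) (h5 : k ≤ 5)
    {σ τ : Type*} [Fintype σ] [Fintype τ] {N : Matrix (ι i) σ K} {N' : Matrix (ι j) τ K}
    {A A' : Divisor K F} (hN : FffmRep fib i N A) (hN' : FffmRep fib j N' A')
    (hA : 4 * (g : ℤ) ≤ Divisor.degree A) (hA' : 2 * (g : ℤ) ≤ Divisor.degree A') :
    FffmRep fib k (fffmProd (c i j k) N N') (A + A') := by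
  have := fib.inf
  rw [FffmRep, fffm_map_range_prod fib hk hi hj h5, hN, hN', ffkm_mul_eq fib.RR fib.hdeg1 hA hA']

theorem fffm_span_singleton_mul (s : F) (M : Submodule K F) :
    Submodule.span K {s} * M = M.map (LinearMap.mulLeft K s) := by
  apply le_antisymm
  · rw [Submodule.mul_le]
    intro m hm n hn
    obtain ⟨r, rfl⟩ := Submodule.mem_span_singleton.mp hm
    refine ⟨r • n, M.smul_mem r hn, ?_⟩
    rw [LinearMap.mulLeft_apply, mul_smul_comm, smul_mul_assoc]
  · rintro _ ⟨n, hn, rfl⟩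
    rw [LinearMap.mulLeft_apply]
    exact Submodule.mul_mem_mul (Submodule.mem_span_singleton_self s) hn

/-- **principal product step** (field level): `s·L(Y) = L(Y - div s)` when `L(X) = K·s` -/
theorem fffm_rep_prod_one {i j k : ℕ} (hk : k = i + j) (hi : 1 ≤ i) (hj : 1 ≤ j) (h5 : k ≤ 5)
    {σ τ : Type*} [Fintype σ] [Fintype τ] {N : Matrix (ι i) σ K} {N' : Matrix (ι j) τ K}
    {X Y : Divisor K F} (hN : FffmRep fib i N X) {s : F} (hs : s ≠ 0)
    (hX : riemannRochSpace X = Submodule.span K {s}) (hN' : FffmRep fib j N' Y)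
    {Ds : Divisor K F} (hDs : ∀ v : Place K F, Ds v = v.ord s) :
    FffmRep fib k (fffmProd (c i j k) N N') (Y - Ds) := by
  rw [FffmRep, fffm_map_range_prod fib hk hi hj h5, hN, hN', hX, fffm_span_singleton_mul,
    ffkm_map_mul_eq hs hDs Y]

/-- **colon step** (field level): the kernel of the colon matrix is `L(i𝔡 ⊓ (C - B))` -/
theorem fffm_rep_colon {i j k : ℕ} (hk : k = i + j) (hi : 1 ≤ i) (hj : 1 ≤ j) (h5 : k ≤ 5)
    {τ : Type*} [Fintype τ] (Q : Matrix (ι k) (ι k) K) {C : Divisor K F}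
    (hQ : (LinearMap.ker Q.mulVecLin).map (fib.real k) = riemannRochSpace C)
    (N' : Matrix (ι j) τ K) {Bd : Divisor K F} (hN' : FffmRep fib j N' Bd)
    (hB : 2 * (g : ℤ) ≤ Divisor.degree Bd) :
    (LinearMap.ker (fffmColon (c i j k) Q N').mulVecLin).map (fib.real i) =
      riemannRochSpace ((i • fib.dd) ⊓ (C - Bd)) := by
  have := fib.inf
  have hk1 : 1 ≤ k := by omega
  have hi5 : i ≤ 5 := by omega
  rw [← ffkm_inf, ← fib.range_real hi hi5]
  ext f
  rw [Submodule.mem_map, Submodule.mem_inf]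
  constructor
  · rintro ⟨v, hv, rfl⟩
    refine ⟨LinearMap.mem_range_self _ v, ?_⟩
    rw [← ffkm_colon fib.RR fib.hdeg1 hB C]
    intro b hb
    rw [← hN'] at hb
    obtain ⟨u, hu, rfl⟩ := hb
    rw [fffm_mem_ker_colon] at hv
    have hle : LinearMap.range N'.mulVecLin ≤
        (LinearMap.ker Q.mulVecLin).comap (fffmMuL (c i j k) v) := by
      rw [Matrix.range_mulVecLin, Submodule.span_le]
      rintro _ ⟨b', rfl⟩
      exact hv b'
    have h1 : fffmMu (c i j k) v u ∈ LinearMap.ker Q.mulVecLin := hle hu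
    rw [← fib.real_mu hk hi hj h5]
    exact (fffm_mem_ker_iff fib hk1 h5 hQ _).mp h1
  · rintro ⟨⟨v, rfl⟩, hf⟩
    refine ⟨v, ?_, rfl⟩
    rw [fffm_mem_ker_colon]
    intro b'
    rw [fffm_mem_ker_iff fib hk1 h5 hQ, fib.real_mu hk hi hj h5]
    refine (ffkm_colon fib.RR fib.hdeg1 hB C _).mpr hf _ ?_
    rw [← hN']
    refine ⟨N'.col b', ?_, rfl⟩
    rw [Matrix.range_mulVecLin]
    exact Submodule.subset_span ⟨b', rfl⟩

end Fib

end Fermat.Agent.FF
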