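/-
Program FF (S19) — the family layer, part 5: the two fibres of the engine from the abstract integral
model (helper13, prefix `fffi`).

From helper26's `M : FfirModel A O red r ρ Dinf m0` (FF/IntRR.lean), Riemann–Roch on both fibres with
the SAME genus, and a level `m ≥ m0` with `5g ≤ m · deg Dinf`:
* index types `Fin (n i)`, `n i = l((i·m) Dinf)`, `G`-fixed integral bases `b i : Fin (n i) → O` of
  `L((i·m) Dinf)` (`i ≥ 1`) whose reductions are bases of `L((i·m) r_*Dinf)`;
* a multiplication table `cW` over any ring `W` through which the fixed ring `ffirFix A ρ` factors;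
* the generic fibre `fibK` (`dd = m • Dinf`, basis `b`) and the special fibre `fibk`
  (`dd = m • r_*Dinf`, basis `red ∘ b`) of the engine, with the literal tables of `ffca_idem`.
-/
import Mathlib
import Fermat.Agent.FF.IntRR
import Fermat.Agent.FF.Fam.Coord

set_option autoImplicit false
set_option linter.unusedSectionVars false
set_option linter.unusedVariables false

noncomputable section

namespace Fermat.Agent.FF

open AlgebraicCurve Module Fermat.Agent.V.RR IsLocalRing

section Model

variable {K : Type*} [Field K] {A : ValuationSubring K}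
variable {F : Type*} [Field F] [Algebra K F]
variable {Fk : Type*} [Field Fk] [Algebra (ResidueField A) Fk]
variable {O : Subring F} {red : O →+* Fk} {G : Type*} [Group G]
variable {r : Place K F → Place (ResidueField A) Fk} {ρ : G →* SemilinearAut K F}
  {Dinf : Divisor K F} {m0 : ℕ} {g : ℕ}

variable (A red r ρ Dinf) in
/-- the properties of the integral basis of level `i·m` -/
def FffiBasis (l : ℕ) {n : ℕ} (b : Fin n → O) : Prop :=
  (∀ p, ((b p : O) : F) ∈ riemannRochSpace (l • Dinf)) ∧
  (∀ p (σ : G), ρ σ • ((b p : O) : F) = b p) ∧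
  LinearIndependent (ResidueField A) (fun p => red (b p)) ∧
  Submodule.span (ResidueField A) (Set.range fun p => red (b p)) =
    riemannRochSpace (l • Finsupp.mapDomain r Dinf) ∧
  LinearIndependent K (fun p => ((b p : O) : F)) ∧
  Submodule.span K (Set.range fun p => ((b p : O) : F)) = riemannRochSpace (l • Dinf)

/-- **the two fibres of the engine from the integral model** -/
theorem fffi_model (M : FfirModel A O red r ρ Dinf m0) (RR : V27RR K F g)
    (RRk : V27RR (ResidueField A) Fk g) (hdeg : ∀ P : Place K F, P.deg = 1)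
    (hdegk : ∀ Q : Place (ResidueField A) Fk, Q.deg = 1) [Infinite K]
    [Infinite (ResidueField A)]
    {W : Type*} [CommRing W] [Algebra W ↥A]
    (hW : ∀ a : K, a ∈ ffirFix A ρ → ∃ w : W, ((algebraMap W ↥A w : ↥A) : K) = a)
    (m : ℕ) (hm : m0 ≤ m) (hmd : 5 * (g : ℤ) ≤ m * Divisor.degree Dinf) :
    ∃ (n : ℕ → ℕ) (b : ∀ i, Fin (n i) → O)
      (cW : ∀ i j k : ℕ, Fin (n i) → Fin (n j) → Fin (n k) → W)
      (fibK : FffmFib (fun i => Fin (n i)) K F g
        (fun i j k p q s => ((algebraMap W ↥A (cW i j k p q s) : ↥A) : K)))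
      (fibk : FffmFib (fun i => Fin (n i)) (ResidueField A) Fk g
        (fun i j k p q s => residue ↥A (algebraMap W ↥A (cW i j k p q s)))),
      fibK.dd = m • Dinf ∧ fibk.dd = m • Finsupp.mapDomain r Dinf ∧
      (∀ i, fibK.b i = fun p => ((b i p : O) : F)) ∧ (∀ i, fibk.b i = fun p => red (b i p)) ∧
      ∀ i, 1 ≤ i → FffiBasis A red r ρ Dinf (i * m) (b i) := by
  classical
  have hg0 : (0 : ℤ) ≤ g := Int.natCast_nonneg g
  have hlev : ∀ i : ℕ, 1 ≤ i → m0 ≤ i * m ∧
      2 * (g : ℤ) - 2 < ((i * m : ℕ) : ℤ) * Divisor.degree Dinf := by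
    intro i hi
    refine ⟨hm.trans (Nat.le_mul_of_pos_left m hi), ?_⟩
    have h1 : (1 : ℤ) ≤ i := by exact_mod_cast hi
    have h2 : (0 : ℤ) ≤ m * Divisor.degree Dinf := by linarith
    have h3 : (m : ℤ) * Divisor.degree Dinf ≤ i * (m * Divisor.degree Dinf) := by nlinarith
    push_cast
    rw [mul_assoc]
    linarith
  -- the bases
  have hbex : ∀ i : ℕ, ∃ b : Fin (finrank K (riemannRochSpace ((i * m) • Dinf))) → O,
      1 ≤ i → FffiBasis A red r ρ Dinf (i * m) b := by
    intro i
    by_cases hi : 1 ≤ i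
    · obtain ⟨b, h1, h2, h3, h4, h5, h6⟩ :=
        ffir_basis M RR RRk hdeg hdegk (hlev i hi).1 (hlev i hi).2
      exact ⟨b, fun _ => ⟨h1, h2, h3, h4, h5, h6⟩⟩
    · exact ⟨fun _ => 0, fun h => absurd h hi⟩
  choose b hb using hbex
  -- the table
  have hcex : ∀ (i j k : ℕ) (p : Fin (finrank K (riemannRochSpace ((i * m) • Dinf))))
      (q : Fin (finrank K (riemannRochSpace ((j * m) • Dinf)))),
      ∃ c : Fin (finrank K (riemannRochSpace ((k * m) • Dinf))) → W,
        k = i + j → 1 ≤ i → 1 ≤ j →
        ((b i p : O) : F) * ((b j q : O) : F) =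
          ∑ s, ((algebraMap W ↥A (c s) : ↥A) : K) • ((b k s : O) : F) := by
    intro i j k p q
    by_cases h : k = i + j ∧ 1 ≤ i ∧ 1 ≤ j
    · obtain ⟨hk, hi, hj⟩ := h
      have hk1 : 1 ≤ k := by omega
      obtain ⟨hi1, hi2, -, -, -, -⟩ := hb i hi
      obtain ⟨hj1, hj2, -, -, -, -⟩ := hb j hj
      obtain ⟨-, hk2, hk3, -, -, hk6⟩ := hb k hk1
      have hsum : (i * m) • Dinf + (j * m) • Dinf = (k * m) • Dinf := by
        rw [← add_smul, hk, add_mul]
      obtain ⟨c, hc⟩ := ffir_struct_const M (b k) hk3 hk2 (D := (i * m) • Dinf)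
        (D' := (j * m) • Dinf) (by rw [hsum, hk6]) (b i p) (b j q) (hi1 p) (hj1 q)
        (hi2 p) (hj2 q)
      choose w hw using fun s => hW _ (c s).2
      refine ⟨w, fun _ _ _ => ?_⟩
      rw [hc]
      exact Finset.sum_congr rfl fun s _ => by rw [hw s]
    · exact ⟨fun _ => 0, fun h1 h2 h3 => absurd ⟨h1, h2, h3⟩ h⟩
  choose cW hcW using hcex
  have hdd : 5 * (g : ℤ) ≤ Divisor.degree (m • Dinf) := by
    rw [map_nsmul, nsmul_eq_mul]
    exact hmd
  have hddk : 5 * (g : ℤ) ≤ Divisor.degree (m • Finsupp.mapDomain r Dinf) := by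
    rw [map_nsmul, nsmul_eq_mul, ffir_degree_mapDomain r hdeg hdegk]
    exact hmd
  refine ⟨fun i => finrank K (riemannRochSpace ((i * m) • Dinf)), b, cW,
    { RR := RR
      inf := inferInstance
      hdeg1 := hdeg
      dd := m • Dinf
      hdd := hdd
      b := fun i p => ((b i p : O) : F)
      li := fun i h1 _ => (hb i h1).2.2.2.2.1
      span := fun i h1 _ => by
        rw [← mul_smul]
        exact (hb i h1).2.2.2.2.2
      mul := fun i j k hk hi hj _ p q => hcW i j k p q hk hi hj },
    { RR := RRk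
      inf := inferInstance
      hdeg1 := hdegk
      dd := m • Finsupp.mapDomain r Dinf
      hdd := hddk
      b := fun i p => red (b i p)
      li := fun i h1 _ => (hb i h1).2.2.1
      span := fun i h1 _ => by
        rw [← mul_smul]
        exact (hb i h1).2.2.2.1
      mul := fun i j k hk hi hj _ p q => by
        have h1 := hcW i j k p q hk hi hj
        have hmem : ∑ s, (((algebraMap W ↥A (cW i j k p q s) : ↥A) : K)) •
            ((b k s : O) : F) ∈ O := by
          rw [← h1]
          exact O.mul_mem (b i p).2 (b j q).2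
        have h2 := ffir_coord_red M.toRed (b k) (fun s => algebraMap W ↥A (cW i j k p q s)) hmem
        rw [← map_mul, ← h2]
        congr 1
        exact Subtype.ext h1 },
    rfl, rfl, fun i => rfl, fun i => rfl, fun i hi => hb i hi⟩

end Model

end Fermat.Agent.FF
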