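/-
Program FF (S19) — the family layer, part 2: the two operations over a ring `R` with a local closed
point and a jointly injective family of points (helper13, prefix `fffm`).

A FAMILY of level `i` over `R` is a matrix `N : Matrix (ι i) σ R` (its columns generate), usually an
idempotent; its fibre at a point `pt x : R →+* L x` is the range of `N.map (pt x)`.
* `fffm_fam_prod`     : the product of two families is a family (idempotent `ffcrR` of the product
                        matrix), fibrewise `L(A)·L(A') = L(A + A')`;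
* `fffm_fam_prod_one` : the same when the first family has one-dimensional fibres `K·s`:
                        fibrewise `s·L(Y) = L(Y - div s)`;
* `fffm_fam_colon`    : the colon of two families is a family (idempotent `ffcrK` of the colon
                        matrix), fibrewise `L(i𝔡 ⊓ (C - B))`.
The constant-rank hypotheses are discharged by the dimension formulas on the fibres.
-/
import Mathlib
import Fermat.Agent.FF.ConstRank
import Fermat.Agent.FF.Fam.Coord

set_option autoImplicit false
set_option linter.unusedSectionVars false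
set_option linter.unusedVariables false

noncomputable section

namespace Fermat.Agent.FF

open AlgebraicCurve Module Fermat.Agent.V.RR Matrix

/-! ### projectors of a constant-rank matrix and base change -/

section Proj

variable {B : Type*} [CommRing B] {m n s : Type*} [Fintype m] [Fintype n] [Fintype s]
  [DecidableEq m] [DecidableEq n] [DecidableEq s]
  {M : Matrix m n B} {f : s → m} {g : s → n}

theorem fffm_range_R_map {B' : Type*} [CommRing B'] (φ : B →+* B') (h : FfcrData M f g) :
    LinearMap.range ((ffcrR M f g).map φ).mulVecLin = LinearMap.range (M.map φ).mulVecLin := by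
  rw [ffcrR_map φ h.unit, ← ffcr_range_eq_range_R (h.map φ)]

theorem fffm_range_K_map {B' : Type*} [CommRing B'] (φ : B →+* B') (h : FfcrData M f g) :
    LinearMap.range ((ffcrK M f g).map φ).mulVecLin = LinearMap.ker (M.map φ).mulVecLin := by
  rw [ffcrK_map φ h.unit, ← ffcr_ker_eq_range_K (h.map φ)]

theorem fffm_map_idem {B' : Type*} [CommRing B'] (φ : B →+* B') {P : Matrix n n B}
    (hP : P * P = P) : P.map φ * P.map φ = P.map φ := by
  rw [← Matrix.map_mul, hP]

theorem fffm_map_one_sub {B' : Type*} [CommRing B'] (φ : B →+* B') (P : Matrix n n B) :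
    (1 - P).map φ = 1 - P.map φ := by
  rw [Matrix.map_sub _ (map_sub φ), Matrix.map_one _ φ.map_zero φ.map_one]

/-- a unit minor survives every base change to a field: the rank is at least `|s|` -/
theorem fffm_card_le_rank_map {k : Type*} [Field k] (φ : B →+* k)
    (hA : IsUnit (M.submatrix f g).det) : Fintype.card s ≤ (M.map φ).rank := by
  have h1 : ((M.map φ).submatrix f g).det ≠ 0 := by
    rw [ffcr_det_submatrix_map]
    exact (hA.map φ).ne_zero
  have h2 := Matrix.rank_of_det_ne_zero h1
  have h3 := Matrix.rank_submatrix_le (M.map φ) f g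
  omega

end Proj

/-! ### the operations on families -/

section Fam

variable {ι : ℕ → Type} [∀ i, Fintype (ι i)] [∀ i, DecidableEq (ι i)]
  {R : Type*} [CommRing R] (cR : ∀ i j k : ℕ, ι i → ι j → ι k → R)
  {Pt : Type*} {L : Pt → Type*} [∀ x, Field (L x)] {F : Pt → Type*} [∀ x, Field (F x)]
  [∀ x, Algebra (L x) (F x)]
  (pt : ∀ x, R →+* L x) (hpt : ∀ b : R, (∀ x, pt x b = 0) → b = 0) (x₀ : Pt)
  [IsLocalHom (pt x₀)]
  {g : ℕ} (fib : ∀ x, FffmFib ι (L x) (F x) g (fun i j k p q s => pt x (cR i j k p q s)))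

include hpt x₀

/-- **product of families** -/
theorem fffm_fam_prod {i j k : ℕ} (hk : k = i + j) (hi : 1 ≤ i) (hj : 1 ≤ j) (h5 : k ≤ 5)
    {σ τ : Type*} [Fintype σ] [Fintype τ] [DecidableEq σ] [DecidableEq τ]
    (N : Matrix (ι i) σ R) (N' : Matrix (ι j) τ R)
    (A A' : ∀ x, Divisor (L x) (F x))
    (hN : ∀ x, FffmRep (fib x) i (N.map (pt x)) (A x))
    (hN' : ∀ x, FffmRep (fib x) j (N'.map (pt x)) (A' x))
    (hA : ∀ x, 4 * (g : ℤ) ≤ Divisor.degree (A x))
    (hA' : ∀ x, 2 * (g : ℤ) ≤ Divisor.degree (A' x))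
    (e : ℤ) (he : ∀ x, Divisor.degree (A x) + Divisor.degree (A' x) = e) :
    ∃ P : Matrix (ι k) (ι k) R, P * P = P ∧
      ∀ x, FffmRep (fib x) k (P.map (pt x)) (A x + A' x) := by
  have hk1 : 1 ≤ k := by omega
  set M := fffmProd (cR i j k) N N' with hM
  have hMx : ∀ x, FffmRep (fib x) k (M.map (pt x)) (A x + A' x) := by
    intro x
    rw [hM, fffmProd_map]
    exact fffm_rep_prod (fib x) hk hi hj h5 (hN x) (hN' x) (hA x) (hA' x)
  have hrank : ∀ x, ((M.map (pt x)).rank : ℤ) = e + 1 - g := by
    intro x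
    rw [fffm_rep_rank (fib x) hk1 h5 (hMx x), ffkm_finrank (fib x).RR, map_add, he x]
    rw [map_add]
    have := hA x
    have := hA' x
    linarith
  obtain ⟨f, g', hf, hg', hdata⟩ := ffcr_exists_data (pt x₀) pt hpt M (e + 1 - g).toNat
    (by have := hrank x₀; omega) (fun x => by have := hrank x; omega)
  refine ⟨ffcrR M f g', ffcr_R_idem hdata.unit, fun x => ?_⟩
  exact (hMx x).of_range_eq (fib x) (fffm_range_R_map (pt x) hdata)

/-- **product of families, the first one with one-dimensional fibres**: fibrewise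
`L(X)·L(Y) = s·L(Y) = L(Y - div s)` for any `0 ≠ s ∈ L(X)` -/
theorem fffm_fam_prod_one {i j k : ℕ} (hk : k = i + j) (hi : 1 ≤ i) (hj : 1 ≤ j) (h5 : k ≤ 5)
    {σ τ : Type*} [Fintype σ] [Fintype τ] [DecidableEq σ] [DecidableEq τ]
    (N : Matrix (ι i) σ R) (N' : Matrix (ι j) τ R)
    (X Y : ∀ x, Divisor (L x) (F x))
    (hN : ∀ x, FffmRep (fib x) i (N.map (pt x)) (X x))
    (hX : ∀ x, finrank (L x) (riemannRochSpace (X x)) = 1)
    (hN' : ∀ x, FffmRep (fib x) j (N'.map (pt x)) (Y x))
    (e : ℤ) (he : ∀ x, Divisor.degree (Y x) = e) (hge : 2 * (g : ℤ) - 1 ≤ e) :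
    ∃ P : Matrix (ι k) (ι k) R, P * P = P ∧
      ∀ x, ∀ s : F x, s ≠ 0 → s ∈ riemannRochSpace (X x) → ∀ Ds : Divisor (L x) (F x),
        (∀ v : Place (L x) (F x), Ds v = v.ord s) →
        FffmRep (fib x) k (P.map (pt x)) (Y x - Ds) := by
  have hk1 : 1 ≤ k := by omega
  set M := fffmProd (cR i j k) N N' with hM
  have hMx : ∀ x, ∀ s : F x, s ≠ 0 → s ∈ riemannRochSpace (X x) → ∀ Ds : Divisor (L x) (F x),
      (∀ v : Place (L x) (F x), Ds v = v.ord s) →
      FffmRep (fib x) k (M.map (pt x)) (Y x - Ds) := by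
    intro x s hs hmem Ds hDs
    rw [hM, fffmProd_map]
    exact fffm_rep_prod_one (fib x) hk hi hj h5 (hN x) hs
      (ffkm_span_of_finrank_one (fib x).RR (hX x) hs hmem) (hN' x) hDs
  have hex : ∀ x, ∃ s : F x, s ≠ 0 ∧ s ∈ riemannRochSpace (X x) := by
    intro x
    have hne : riemannRochSpace (X x) ≠ ⊥ := by
      intro h0
      have := hX x
      rw [h0, finrank_bot] at this
      exact zero_ne_one this
    obtain ⟨s, hs, hs0⟩ := Submodule.exists_mem_ne_zero_of_ne_bot hne
    exact ⟨s, hs0, hs⟩
  have hrank : ∀ x, ((M.map (pt x)).rank : ℤ) = e + 1 - g := by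
    intro x
    obtain ⟨s, hs, hmem⟩ := hex x
    have := (fib x).RR.hasDiv
    obtain ⟨Ds, hDs, hdeg⟩ := HasPrincipalDivisors.exists_divisor (K := L x) s hs
    rw [fffm_rep_rank (fib x) hk1 h5 (hMx x s hs hmem Ds hDs), ffkm_finrank (fib x).RR, map_sub,
      hdeg, he x, sub_zero]
    rw [map_sub, hdeg, he x, sub_zero]
    exact hge
  obtain ⟨f, g', hf, hg', hdata⟩ := ffcr_exists_data (pt x₀) pt hpt M (e + 1 - g).toNat
    (by have := hrank x₀; omega) (fun x => by have := hrank x; omega)
  refine ⟨ffcrR M f g', ffcr_R_idem hdata.unit, fun x s hs hmem Ds hDs => ?_⟩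
  exact (hMx x s hs hmem Ds hDs).of_range_eq (fib x) (fffm_range_R_map (pt x) hdata)

/-- **colon of families**: `P_U` an idempotent family of level `k` with fibres `L(C x)`, `N'` a
family of level `j` with fibres `L(B x)`; the colon is a family of level `i` with fibres
`L(A x)`, `A x = i𝔡 ⊓ (C x - B x)`, provided the dimension of the fibre at the closed point is the
minimum; then all fibres have that dimension. -/
theorem fffm_fam_colon {i j k : ℕ} (hk : k = i + j) (hi : 1 ≤ i) (hj : 1 ≤ j) (h5 : k ≤ 5)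
    {τ : Type*} [Fintype τ] [DecidableEq τ]
    (PU : Matrix (ι k) (ι k) R) (hPU : PU * PU = PU) (N' : Matrix (ι j) τ R)
    (C Bd A : ∀ x, Divisor (L x) (F x))
    (hC : ∀ x, FffmRep (fib x) k (PU.map (pt x)) (C x))
    (hN' : ∀ x, FffmRep (fib x) j (N'.map (pt x)) (Bd x))
    (hB : ∀ x, 2 * (g : ℤ) ≤ Divisor.degree (Bd x))
    (hA : ∀ x, (i • (fib x).dd) ⊓ (C x - Bd x) = A x)
    (d₀ : ℕ) (h0 : finrank (L x₀) (riemannRochSpace (A x₀)) = d₀)
    (hge : ∀ x, d₀ ≤ finrank (L x) (riemannRochSpace (A x))) :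
    ∃ P : Matrix (ι i) (ι i) R, P * P = P ∧
      (∀ x, FffmRep (fib x) i (P.map (pt x)) (A x)) ∧
      ∀ x, finrank (L x) (riemannRochSpace (A x)) = d₀ := by
  have hi5 : i ≤ 5 := by omega
  set N := fffmColon (cR i j k) (1 - PU) N' with hNdef
  have hNx : ∀ x, (LinearMap.ker (N.map (pt x)).mulVecLin).map ((fib x).real i) =
      riemannRochSpace (A x) := by
    intro x
    rw [hNdef, fffmColon_map, fffm_map_one_sub, ← hA x]
    refine fffm_rep_colon (fib x) hk hi hj h5 (1 - PU.map (pt x)) ?_ (N'.map (pt x)) (hN' x) (hB x)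
    rw [fffm_ker_one_sub _ (fffm_map_idem (pt x) hPU)]
    exact hC x
  have hker : ∀ x, finrank (L x) (LinearMap.ker (N.map (pt x)).mulVecLin) =
      finrank (L x) (riemannRochSpace (A x)) :=
    fun x => fffm_ker_finrank (fib x) hi hi5 (hNx x)
  have hrn : ∀ x, (N.map (pt x)).rank + finrank (L x) (LinearMap.ker (N.map (pt x)).mulVecLin) =
      Fintype.card (ι i) := fun x => fffm_rank_add_finrank_ker _
  obtain ⟨f, g', hf, hg', hdata⟩ := ffcr_exists_data (pt x₀) pt hpt N (Fintype.card (ι i) - d₀)
    (by have := hrn x₀; have := hker x₀; omega)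
    (fun x => by have := hrn x; have := hker x; have := hge x; omega)
  refine ⟨ffcrK N f g', ffcr_K_idem hdata.unit, fun x => ?_, fun x => ?_⟩
  · rw [FffmRep, fffm_range_K_map (pt x) hdata]
    exact hNx x
  · have h1 := fffm_card_le_rank_map (pt x) hdata.unit
    rw [Fintype.card_fin] at h1
    have := hrn x
    have := hker x
    have := hge x
    have := hrn x₀
    have := hker x₀
    omega

end Fam

end Fermat.Agent.FF
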