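/-
Program FF (S19) — the family layer, part 3: Khuri-Makdisi ADDITION over a ring `R` with a local
closed point and a jointly injective family of points (helper13, prefix `fffm`).

`fffm_add`: two families `𝒲_D`, `𝒲_D'` of level 1 over `R` with fibres `L(𝔡 - D x)`, `L(𝔡 - D' x)`
(`D x`, `D' x` effective of degree `g`), three fixed families with fibres `L(2𝔡 - E)`,
`L(2𝔡 - E - D₀)`, `L(3𝔡 - E - D₀)`; if at the CLOSED point only
(G-i) `l(2𝔡 - D - D' - E) = 1` and (G-ii) `l(D + D' - D₀) = 1`, then there is an idempotent family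
`P` of level 1 over `R` whose fibre at EVERY point `x` is `L(𝔡 - D'')` with `D''` effective of degree
`g` and `D'' ∼ D x + D' x - D₀ x`.

Ten constant-rank steps (products and colons only):
 1. `L(𝔡-D)·L(𝔡-D') = L(2𝔡-T)`, `T = D + D'`;  2. `𝒰 = L(2𝔡-T)·L(2𝔡-E) = L(4𝔡-T-E)`;
 3. `𝒮 = (𝒰 : L(2𝔡)) = L(2𝔡-T-E)`, of rank one, `= K·s`;  4. `s·L(3𝔡)`, and the flip
 `(s·L(3𝔡) : 𝒰) = L(𝔡-R₁)`, `R₁ = 2𝔡-T-E+div s ≥ 0`;  5. `L(𝔡-R₁)·L(2𝔡-E-D₀)`;
 6. `𝒮' = (· : L(𝔡)) = L(2𝔡-R₁-E-D₀)`, of rank one, `= K·s'`;  7. `𝒰' = L(𝔡-R₁)·L(3𝔡-E-D₀)`;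
 8. `s'·L(3𝔡)` and the flip `(s'·L(3𝔡) : 𝒰') = L(𝔡-D'')`, `D'' = T - D₀ + div s' - div s`.
-/
import Mathlib
import Fermat.Agent.FF.Fam.Ops

set_option autoImplicit false
set_option linter.unusedSectionVars false
set_option linter.unusedVariables false

noncomputable section

namespace Fermat.Agent.FF

open AlgebraicCurve Module Fermat.Agent.V.RR Matrix

section Aux

variable {K F : Type*} [Field K] [Field F] [Algebra K F]

theorem fffm_inf_eq {Z A B : Divisor K F} (h : B = A) (hle : A ≤ Z) : Z ⊓ B = A := by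
  rw [h]
  exact inf_eq_right.mpr hle

/-- `l(Y - div s) = l(Y)` -/
theorem fffm_finrank_sub_div {s : F} (hs : s ≠ 0) {Ds : Divisor K F}
    (hDs : ∀ v : Place K F, Ds v = v.ord s) (Y : Divisor K F) :
    finrank K (riemannRochSpace (Y - Ds)) = finrank K (riemannRochSpace Y) := by
  rw [← ffkm_map_mul_eq hs hDs Y]
  have hinj : Function.Injective (LinearMap.mulLeft K s) := by
    intro a b hab
    simp only [LinearMap.mulLeft_apply] at hab
    exact mul_left_cancel₀ hs hab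
  exact (Submodule.equivMapOfInjective (LinearMap.mulLeft K s) hinj _).finrank_eq.symm

/-- a one-dimensional space has a non-zero element, with its divisor -/
theorem fffm_exists_section {g : ℕ} (RR : V27RR K F g) {X : Divisor K F}
    (hX : finrank K (riemannRochSpace X) = 1) :
    ∃ (s : F) (Ds : Divisor K F), s ≠ 0 ∧ s ∈ riemannRochSpace X ∧
      (∀ v : Place K F, Ds v = v.ord s) ∧ Divisor.degree Ds = 0 := by
  have hne : riemannRochSpace X ≠ ⊥ := by
    intro h0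
    rw [h0, finrank_bot] at hX
    exact zero_ne_one hX
  obtain ⟨s, hs, hs0⟩ := Submodule.exists_mem_ne_zero_of_ne_bot hne
  have := RR.hasDiv
  obtain ⟨Ds, hDs, hdeg⟩ := HasPrincipalDivisors.exists_divisor (K := K) s hs0
  exact ⟨s, Ds, hs0, hs, hDs, hdeg⟩

end Aux

section Add

variable {ι : ℕ → Type} [∀ i, Fintype (ι i)] [∀ i, DecidableEq (ι i)]
  {R : Type*} [CommRing R] (cR : ∀ i j k : ℕ, ι i → ι j → ι k → R)
  {Pt : Type*} {L : Pt → Type*} [∀ x, Field (L x)] {F : Pt → Type*} [∀ x, Field (F x)]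
  [∀ x, Algebra (L x) (F x)]
  (pt : ∀ x, R →+* L x) (hpt : ∀ b : R, (∀ x, pt x b = 0) → b = 0) (x₀ : Pt)
  [IsLocalHom (pt x₀)]
  {g : ℕ} (fib : ∀ x, FffmFib ι (L x) (F x) g (fun i j k p q s => pt x (cR i j k p q s)))

include hpt x₀

/-- **Khuri-Makdisi addition in a family.** -/
theorem fffm_add (δ : ℤ) (hδ : ∀ x, Divisor.degree (fib x).dd = δ)
    (D D' E D₀ : ∀ x, Divisor (L x) (F x))
    (hD : ∀ x, 0 ≤ D x) (hDdeg : ∀ x, Divisor.degree (D x) = g)
    (hD' : ∀ x, 0 ≤ D' x) (hD'deg : ∀ x, Divisor.degree (D' x) = g)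
    (hE : ∀ x, 0 ≤ E x) (hEdeg : ∀ x, Divisor.degree (E x) = 2 * δ - 3 * g)
    (hD₀ : ∀ x, 0 ≤ D₀ x) (hD₀deg : ∀ x, Divisor.degree (D₀ x) = g)
    {σ σ' σE σ2 σ3 : Type*} [Fintype σ] [Fintype σ'] [Fintype σE] [Fintype σ2] [Fintype σ3]
    [DecidableEq σ] [DecidableEq σ'] [DecidableEq σE] [DecidableEq σ2] [DecidableEq σ3]
    (GD : Matrix (ι 1) σ R) (GD' : Matrix (ι 1) σ' R) (GE : Matrix (ι 2) σE R)
    (GED : Matrix (ι 2) σ2 R) (GED3 : Matrix (ι 3) σ3 R)
    (hGD : ∀ x, FffmRep (fib x) 1 (GD.map (pt x)) ((fib x).dd - D x))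
    (hGD' : ∀ x, FffmRep (fib x) 1 (GD'.map (pt x)) ((fib x).dd - D' x))
    (hGE : ∀ x, FffmRep (fib x) 2 (GE.map (pt x)) (2 • (fib x).dd - E x))
    (hGED : ∀ x, FffmRep (fib x) 2 (GED.map (pt x)) (2 • (fib x).dd - E x - D₀ x))
    (hGED3 : ∀ x, FffmRep (fib x) 3 (GED3.map (pt x)) (3 • (fib x).dd - E x - D₀ x))
    (hGi : finrank (L x₀) (riemannRochSpace (2 • (fib x₀).dd - D x₀ - D' x₀ - E x₀)) = 1)
    (hGii : finrank (L x₀) (riemannRochSpace (D x₀ + D' x₀ - D₀ x₀)) = 1) :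
    ∃ P : Matrix (ι 1) (ι 1) R, P * P = P ∧
      ∀ x, ∃ D'' : Divisor (L x) (F x), 0 ≤ D'' ∧ Divisor.degree D'' = g ∧
        (D'' - (D x + D' x - D₀ x)).IsPrincipal ∧
        FffmRep (fib x) 1 (P.map (pt x)) ((fib x).dd - D'') := by
  classical
  have hδg : 5 * (g : ℤ) ≤ δ := (hδ x₀) ▸ (fib x₀).hdd
  have hone : ∀ (i : ℕ) (h1 : 1 ≤ i) (h5 : i ≤ 5) (x : Pt),
      FffmRep (fib x) i ((1 : Matrix (ι i) (ι i) R).map (pt x)) (i • (fib x).dd) := by
    intro i h1 h5 x
    rw [Matrix.map_one _ (pt x).map_zero (pt x).map_one]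
    exact fffm_rep_one (fib x) h1 h5
  -- Step 1: L(𝔡 - D)·L(𝔡 - D')
  obtain ⟨P1, hP1, hR1⟩ := fffm_fam_prod cR pt hpt x₀ fib (i := 1) (j := 1) (k := 2) rfl le_rfl
    le_rfl (by norm_num) GD GD' (fun x => (fib x).dd - D x) (fun x => (fib x).dd - D' x) hGD hGD'
    (fun x => by rw [map_sub, hδ x, hDdeg x]; linarith)
    (fun x => by rw [map_sub, hδ x, hD'deg x]; linarith) (2 * δ - 2 * g)
    (fun x => by rw [map_sub, map_sub, hδ x, hDdeg x, hD'deg x]; ring)
  -- Step 2: 𝒰 = L(2𝔡 - T)·L(2𝔡 - E)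
  obtain ⟨P2, hP2, hR2⟩ := fffm_fam_prod cR pt hpt x₀ fib (i := 2) (j := 2) (k := 4) rfl
    (by norm_num) (by norm_num) (by norm_num) P1 GE
    (fun x => (fib x).dd - D x + ((fib x).dd - D' x)) (fun x => 2 • (fib x).dd - E x) hR1 hGE
    (fun x => by
      simp only [map_add, map_sub, hδ x, hDdeg x, hD'deg x]
      linarith)
    (fun x => by
      simp only [map_sub, map_nsmul, nsmul_eq_mul, Nat.cast_ofNat, hδ x, hEdeg x]
      linarith) (2 * δ + g)
    (fun x => by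
      simp only [map_add, map_sub, map_nsmul, nsmul_eq_mul, Nat.cast_ofNat, hδ x, hDdeg x,
        hD'deg x, hEdeg x]
      ring)
  -- Step 3: 𝒮 = (𝒰 : L(2𝔡)) = L(2𝔡 - T - E), rank one
  have hXdeg : ∀ x, Divisor.degree (2 • (fib x).dd - D x - D' x - E x) = g := by
    intro x
    simp only [map_sub, map_nsmul, nsmul_eq_mul, Nat.cast_ofNat, hδ x, hDdeg x, hD'deg x, hEdeg x]
    ring
  have hone2 := hone 2 (by norm_num) (by norm_num)
  have key3 := fffm_fam_colon cR pt hpt x₀ fib (i := 2) (j := 2) (k := 4) rfl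
    (by norm_num) (by norm_num) (by norm_num) P2 hP2 (1 : Matrix (ι 2) (ι 2) R)
    (fun x => (fib x).dd - D x + ((fib x).dd - D' x) + (2 • (fib x).dd - E x))
    (fun x => 2 • (fib x).dd) (fun x => 2 • (fib x).dd - D x - D' x - E x) hR2 hone2
  obtain ⟨P3, hP3, hR3, hfr3⟩ := key3
    (fun x => by
      simp only [map_nsmul, nsmul_eq_mul, Nat.cast_ofNat, hδ x]
      linarith)
    (fun x => by
      refine fffm_inf_eq (by abel) ?_
      have h1 : 0 ≤ D x + D' x + E x := add_nonneg (add_nonneg (hD x) (hD' x)) (hE x)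
      have h2 : 2 • (fib x).dd - D x - D' x - E x = 2 • (fib x).dd - (D x + D' x + E x) := by abel
      rw [h2]
      exact sub_le_self _ h1)
    1 hGi
    (fun x => by
      have := (fib x).RR.riemann_ineq (2 • (fib x).dd - D x - D' x - E x)
      rw [hXdeg x] at this
      omega)
  -- Step 4a: s·L(3𝔡)
  have hone3 := hone 3 (by norm_num) (by norm_num)
  have key4 := fffm_fam_prod_one cR pt hpt x₀ fib (i := 2) (j := 3) (k := 5) rfl
    (by norm_num) (by norm_num) (by norm_num) P3 (1 : Matrix (ι 3) (ι 3) R)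
    (fun x => 2 • (fib x).dd - D x - D' x - E x) (fun x => 3 • (fib x).dd) hR3 hfr3 hone3
  obtain ⟨P4, hP4, hR4⟩ := key4 (3 * δ)
    (fun x => by simp only [map_nsmul, nsmul_eq_mul, Nat.cast_ofNat, hδ x])
    (by linarith)
  have hex : ∀ x, ∃ (s : F x) (Ds : Divisor (L x) (F x)), s ≠ 0 ∧
      s ∈ riemannRochSpace (2 • (fib x).dd - D x - D' x - E x) ∧
      (∀ v : Place (L x) (F x), Ds v = v.ord s) ∧ Divisor.degree Ds = 0 :=
    fun x => fffm_exists_section (fib x).RR (hfr3 x)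
  choose s Ds hs hsmem hDs hDsdeg using hex
  have hres : ∀ x, 0 ≤ 2 • (fib x).dd - D x - D' x - E x + Ds x ∧
      Divisor.degree (2 • (fib x).dd - D x - D' x - E x + Ds x) = g := by
    intro x
    have := ffkm_residual (fib x).RR (hs x) (hsmem x) (hDs x)
    rw [hXdeg x] at this
    exact this
  -- Step 4b: the flip, L(𝔡 - R₁)
  have hA5deg : ∀ x, Divisor.degree
      ((fib x).dd - (2 • (fib x).dd - D x - D' x - E x + Ds x)) = δ - g := by
    intro x
    rw [map_sub, (hres x).2, hδ x]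
  have hfr5 : ∀ x, finrank (L x) (riemannRochSpace
      ((fib x).dd - (2 • (fib x).dd - D x - D' x - E x + Ds x))) = (δ - 2 * g + 1).toNat := by
    intro x
    have := ffkm_finrank (fib x).RR
      (A := (fib x).dd - (2 • (fib x).dd - D x - D' x - E x + Ds x))
      (by rw [hA5deg x]; linarith)
    rw [hA5deg x] at this
    omega
  have hR4' := fun x => hR4 x (s x) (hs x) (hsmem x) (Ds x) (hDs x)
  have key5 := fffm_fam_colon cR pt hpt x₀ fib (i := 1) (j := 4) (k := 5) rfl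
    (by norm_num) (by norm_num) (by norm_num) P4 hP4 P2
    (fun x => 3 • (fib x).dd - Ds x)
    (fun x => (fib x).dd - D x + ((fib x).dd - D' x) + (2 • (fib x).dd - E x))
    (fun x => (fib x).dd - (2 • (fib x).dd - D x - D' x - E x + Ds x)) hR4' hR2
  obtain ⟨P5, hP5, hR5, -⟩ := key5
    (fun x => by
      simp only [map_add, map_sub, map_nsmul, nsmul_eq_mul, Nat.cast_ofNat, hδ x, hDdeg x,
        hD'deg x, hEdeg x]
      linarith)
    (fun x => by
      refine fffm_inf_eq (by abel) ?_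
      rw [one_smul]
      exact sub_le_self _ (hres x).1)
    (δ - 2 * g + 1).toNat (hfr5 x₀) (fun x => (hfr5 x).ge)
  -- Step 5: L(𝔡 - R₁)·L(2𝔡 - E - D₀)
  obtain ⟨P6, hP6, hR6⟩ := fffm_fam_prod cR pt hpt x₀ fib (i := 1) (j := 2) (k := 3) rfl
    (by norm_num) (by norm_num) (by norm_num) P5 GED
    (fun x => (fib x).dd - (2 • (fib x).dd - D x - D' x - E x + Ds x))
    (fun x => 2 • (fib x).dd - E x - D₀ x) hR5 hGED
    (fun x => by rw [hA5deg x]; linarith)
    (fun x => by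
      simp only [map_sub, map_nsmul, nsmul_eq_mul, Nat.cast_ofNat, hδ x, hEdeg x, hD₀deg x]
      linarith) (δ + g)
    (fun x => by
      rw [hA5deg x]
      simp only [map_sub, map_nsmul, nsmul_eq_mul, Nat.cast_ofNat, hδ x, hEdeg x, hD₀deg x]
      ring)
  -- Step 6: 𝒮' = (· : L(𝔡)) = L(2𝔡 - R₁ - E - D₀), rank one
  have hX2deg : ∀ x, Divisor.degree
      (2 • (fib x).dd - (2 • (fib x).dd - D x - D' x - E x + Ds x) - E x - D₀ x) = g := by
    intro x
    rw [map_sub, map_sub, map_sub, (hres x).2]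
    simp only [map_nsmul, nsmul_eq_mul, Nat.cast_ofNat, hδ x, hEdeg x, hD₀deg x]
    ring
  have hX2eq : ∀ x, 2 • (fib x).dd - (2 • (fib x).dd - D x - D' x - E x + Ds x) - E x - D₀ x =
      D x + D' x - D₀ x - Ds x := fun x => by abel
  have hone1 := hone 1 (by norm_num) (by norm_num)
  have key7 := fffm_fam_colon cR pt hpt x₀ fib (i := 2) (j := 1) (k := 3) rfl
    (by norm_num) (by norm_num) (by norm_num) P6 hP6 (1 : Matrix (ι 1) (ι 1) R)
    (fun x => (fib x).dd - (2 • (fib x).dd - D x - D' x - E x + Ds x) +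
      (2 • (fib x).dd - E x - D₀ x))
    (fun x => 1 • (fib x).dd)
    (fun x => 2 • (fib x).dd - (2 • (fib x).dd - D x - D' x - E x + Ds x) - E x - D₀ x) hR6
    hone1
  obtain ⟨P7, hP7, hR7, hfr7⟩ := key7
    (fun x => by
      rw [one_smul, hδ x]
      linarith)
    (fun x => by
      refine fffm_inf_eq (by rw [one_smul]; abel) ?_
      have h1 : 0 ≤ (2 • (fib x).dd - D x - D' x - E x + Ds x) + E x + D₀ x :=
        add_nonneg (add_nonneg (hres x).1 (hE x)) (hD₀ x)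
      have h2 : 2 • (fib x).dd - (2 • (fib x).dd - D x - D' x - E x + Ds x) - E x - D₀ x =
          2 • (fib x).dd - ((2 • (fib x).dd - D x - D' x - E x + Ds x) + E x + D₀ x) := by abel
      rw [h2]
      exact sub_le_self _ h1)
    1
    (by
      rw [hX2eq x₀, fffm_finrank_sub_div (hs x₀) (hDs x₀)]
      exact hGii)
    (fun x => by
      have := (fib x).RR.riemann_ineq
        (2 • (fib x).dd - (2 • (fib x).dd - D x - D' x - E x + Ds x) - E x - D₀ x)
      rw [hX2deg x] at this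
      omega)
  -- Step 7: 𝒰' = L(𝔡 - R₁)·L(3𝔡 - E - D₀)
  obtain ⟨P8, hP8, hR8⟩ := fffm_fam_prod cR pt hpt x₀ fib (i := 1) (j := 3) (k := 4) rfl
    (by norm_num) (by norm_num) (by norm_num) P5 GED3
    (fun x => (fib x).dd - (2 • (fib x).dd - D x - D' x - E x + Ds x))
    (fun x => 3 • (fib x).dd - E x - D₀ x) hR5 hGED3
    (fun x => by rw [hA5deg x]; linarith)
    (fun x => by
      simp only [map_sub, map_nsmul, nsmul_eq_mul, Nat.cast_ofNat, hδ x, hEdeg x, hD₀deg x]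
      linarith) (2 * δ + g)
    (fun x => by
      rw [hA5deg x]
      simp only [map_sub, map_nsmul, nsmul_eq_mul, Nat.cast_ofNat, hδ x, hEdeg x, hD₀deg x]
      ring)
  -- Step 8a: s'·L(3𝔡)
  have key9 := fffm_fam_prod_one cR pt hpt x₀ fib (i := 2) (j := 3) (k := 5) rfl
    (by norm_num) (by norm_num) (by norm_num) P7 (1 : Matrix (ι 3) (ι 3) R)
    (fun x => 2 • (fib x).dd - (2 • (fib x).dd - D x - D' x - E x + Ds x) - E x - D₀ x)
    (fun x => 3 • (fib x).dd) hR7 hfr7 hone3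
  obtain ⟨P9, hP9, hR9⟩ := key9 (3 * δ)
    (fun x => by simp only [map_nsmul, nsmul_eq_mul, Nat.cast_ofNat, hδ x])
    (by linarith)
  have hex' : ∀ x, ∃ (s' : F x) (Ds' : Divisor (L x) (F x)), s' ≠ 0 ∧
      s' ∈ riemannRochSpace
        (2 • (fib x).dd - (2 • (fib x).dd - D x - D' x - E x + Ds x) - E x - D₀ x) ∧
      (∀ v : Place (L x) (F x), Ds' v = v.ord s') ∧ Divisor.degree Ds' = 0 :=
    fun x => fffm_exists_section (fib x).RR (hfr7 x)
  choose s' Ds' hs' hsmem' hDs' hDsdeg' using hex'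
  have hres' : ∀ x,
      0 ≤ 2 • (fib x).dd - (2 • (fib x).dd - D x - D' x - E x + Ds x) - E x - D₀ x + Ds' x ∧
      Divisor.degree
        (2 • (fib x).dd - (2 • (fib x).dd - D x - D' x - E x + Ds x) - E x - D₀ x + Ds' x) =
        g := by
    intro x
    have := ffkm_residual (fib x).RR (hs' x) (hsmem' x) (hDs' x)
    rw [hX2deg x] at this
    exact this
  -- Step 8b: the flip, L(𝔡 - D'')
  have hA10deg : ∀ x, Divisor.degree ((fib x).dd -
      (2 • (fib x).dd - (2 • (fib x).dd - D x - D' x - E x + Ds x) - E x - D₀ x + Ds' x)) =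
      δ - g := by
    intro x
    rw [map_sub, (hres' x).2, hδ x]
  have hfr10 : ∀ x, finrank (L x) (riemannRochSpace ((fib x).dd -
      (2 • (fib x).dd - (2 • (fib x).dd - D x - D' x - E x + Ds x) - E x - D₀ x + Ds' x))) =
      (δ - 2 * g + 1).toNat := by
    intro x
    have := ffkm_finrank (fib x).RR (A := (fib x).dd -
      (2 • (fib x).dd - (2 • (fib x).dd - D x - D' x - E x + Ds x) - E x - D₀ x + Ds' x))
      (by rw [hA10deg x]; linarith)
    rw [hA10deg x] at this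
    omega
  have hR9' := fun x => hR9 x (s' x) (hs' x) (hsmem' x) (Ds' x) (hDs' x)
  have key10 := fffm_fam_colon cR pt hpt x₀ fib (i := 1) (j := 4) (k := 5) rfl
    (by norm_num) (by norm_num) (by norm_num) P9 hP9 P8
    (fun x => 3 • (fib x).dd - Ds' x)
    (fun x => (fib x).dd - (2 • (fib x).dd - D x - D' x - E x + Ds x) +
      (3 • (fib x).dd - E x - D₀ x))
    (fun x => (fib x).dd -
      (2 • (fib x).dd - (2 • (fib x).dd - D x - D' x - E x + Ds x) - E x - D₀ x + Ds' x))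
    hR9' hR8
  obtain ⟨P10, hP10, hR10, -⟩ := key10
    (fun x => by
      rw [map_add, hA5deg x]
      simp only [map_sub, map_nsmul, nsmul_eq_mul, Nat.cast_ofNat, hδ x, hEdeg x, hD₀deg x]
      linarith)
    (fun x => by
      refine fffm_inf_eq (by abel) ?_
      rw [one_smul]
      exact sub_le_self _ (hres' x).1)
    (δ - 2 * g + 1).toNat (hfr10 x₀) (fun x => (hfr10 x).ge)
  refine ⟨P10, hP10, fun x => ⟨_, (hres' x).1, (hres' x).2, ?_, hR10 x⟩⟩
  have hsub : 2 • (fib x).dd - (2 • (fib x).dd - D x - D' x - E x + Ds x) - E x - D₀ x + Ds' x -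
      (D x + D' x - D₀ x) = Ds' x - Ds x := by abel
  rw [hsub]
  refine ⟨s' x * (s x)⁻¹, mul_ne_zero (hs' x) (inv_ne_zero (hs x)), fun v => ?_⟩
  rw [Finsupp.sub_apply, hDs' x v, hDs x v, v.ord_mul (hs' x) (inv_ne_zero (hs x)), v.ord_inv]
  ring

end Add

end Fermat.Agent.FF
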