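/-
Program FF (S19) — the family layer, part 4: `fffm_add` for TWO kinds of points (helper13, prefix
`fffm`): one closed point `cl : R →+* k` (a local homomorphism, fibre `Fk / k`) and a jointly
injective family of generic points `ev x : R →+* K` (fibre `F / K`).  This hides the dependent family
of fields `Option X → Type` of `fffm_add`.
-/
import Mathlib
import Fermat.Agent.FF.Fam.Add

set_option autoImplicit false
set_option linter.unusedSectionVars false
set_option linter.unusedVariables false

noncomputable section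

namespace Fermat.Agent.FF

open AlgebraicCurve Module Fermat.Agent.V.RR Matrix

universe u v w

/-- the field at a point: `k` at the closed point `none`, `K` at the generic points -/
def FffmL (k K : Type u) {X : Type w} : Option X → Type u
  | none => k
  | some _ => K

instance fffmLField {k K : Type u} [Field k] [Field K] {X : Type w} (o : Option X) :
    Field (FffmL k K o) :=
  match o with
  | none => inferInstanceAs (Field k)
  | some _ => inferInstanceAs (Field K)

instance fffmLAlgebra {k K : Type u} [Field k] [Field K] {Fk F : Type v} [Field Fk] [Field F]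
    [Algebra k Fk] [Algebra K F] {X : Type w} (o : Option X) :
    Algebra (FffmL k K o) (FffmL Fk F o) :=
  match o with
  | none => inferInstanceAs (Algebra k Fk)
  | some _ => inferInstanceAs (Algebra K F)

section Two

variable {ι : ℕ → Type} [∀ i, Fintype (ι i)] [∀ i, DecidableEq (ι i)]
  {R : Type*} [CommRing R] (cR : ∀ i j k : ℕ, ι i → ι j → ι k → R)
  {k K : Type u} [Field k] [Field K] {Fk F : Type v} [Field Fk] [Field F]
  [Algebra k Fk] [Algebra K F] {X : Type w}
  (cl : R →+* k) [IsLocalHom cl] (ev : X → R →+* K)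
  (hev : ∀ b : R, (∀ x, ev x b = 0) → b = 0)
  {g : ℕ} (fibk : FffmFib ι k Fk g (fun i j k' p q s => cl (cR i j k' p q s)))
  (fibK : ∀ x, FffmFib ι K F g (fun i j k' p q s => ev x (cR i j k' p q s)))

/-- the points of `fffm_add` -/
def fffmPt : ∀ o : Option X, R →+* FffmL k K o
  | none => cl
  | some x => ev x

include hev in
/-- **Khuri-Makdisi addition in a family, two kinds of points.** -/
theorem fffm_add_two (δ : ℤ) (hδk : Divisor.degree fibk.dd = δ)
    (hδK : ∀ x, Divisor.degree (fibK x).dd = δ)
    (Dk Dk' Ek D0k : Divisor k Fk) (D D' E D0 : X → Divisor K F)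
    (hDk : 0 ≤ Dk) (hDkdeg : Divisor.degree Dk = g)
    (hDk' : 0 ≤ Dk') (hDk'deg : Divisor.degree Dk' = g)
    (hEk : 0 ≤ Ek) (hEkdeg : Divisor.degree Ek = 2 * δ - 3 * g)
    (hD0k : 0 ≤ D0k) (hD0kdeg : Divisor.degree D0k = g)
    (hD : ∀ x, 0 ≤ D x) (hDdeg : ∀ x, Divisor.degree (D x) = g)
    (hD' : ∀ x, 0 ≤ D' x) (hD'deg : ∀ x, Divisor.degree (D' x) = g)
    (hE : ∀ x, 0 ≤ E x) (hEdeg : ∀ x, Divisor.degree (E x) = 2 * δ - 3 * g)
    (hD0 : ∀ x, 0 ≤ D0 x) (hD0deg : ∀ x, Divisor.degree (D0 x) = g)
    {σ σ' σE σ2 σ3 : Type*} [Fintype σ] [Fintype σ'] [Fintype σE] [Fintype σ2] [Fintype σ3]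
    [DecidableEq σ] [DecidableEq σ'] [DecidableEq σE] [DecidableEq σ2] [DecidableEq σ3]
    (GD : Matrix (ι 1) σ R) (GD' : Matrix (ι 1) σ' R) (GE : Matrix (ι 2) σE R)
    (GED : Matrix (ι 2) σ2 R) (GED3 : Matrix (ι 3) σ3 R)
    (hGDk : FffmRep fibk 1 (GD.map cl) (fibk.dd - Dk))
    (hGDk' : FffmRep fibk 1 (GD'.map cl) (fibk.dd - Dk'))
    (hGEk : FffmRep fibk 2 (GE.map cl) (2 • fibk.dd - Ek))
    (hGEDk : FffmRep fibk 2 (GED.map cl) (2 • fibk.dd - Ek - D0k))
    (hGED3k : FffmRep fibk 3 (GED3.map cl) (3 • fibk.dd - Ek - D0k))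
    (hGD : ∀ x, FffmRep (fibK x) 1 (GD.map (ev x)) ((fibK x).dd - D x))
    (hGD' : ∀ x, FffmRep (fibK x) 1 (GD'.map (ev x)) ((fibK x).dd - D' x))
    (hGE : ∀ x, FffmRep (fibK x) 2 (GE.map (ev x)) (2 • (fibK x).dd - E x))
    (hGED : ∀ x, FffmRep (fibK x) 2 (GED.map (ev x)) (2 • (fibK x).dd - E x - D0 x))
    (hGED3 : ∀ x, FffmRep (fibK x) 3 (GED3.map (ev x)) (3 • (fibK x).dd - E x - D0 x))
    (hGi : finrank k (riemannRochSpace (2 • fibk.dd - Dk - Dk' - Ek)) = 1)
    (hGii : finrank k (riemannRochSpace (Dk + Dk' - D0k)) = 1) :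
    ∃ P : Matrix (ι 1) (ι 1) R, P * P = P ∧
      (∃ D'' : Divisor k Fk, 0 ≤ D'' ∧ Divisor.degree D'' = g ∧
        (D'' - (Dk + Dk' - D0k)).IsPrincipal ∧ FffmRep fibk 1 (P.map cl) (fibk.dd - D'')) ∧
      ∀ x, ∃ D'' : Divisor K F, 0 ≤ D'' ∧ Divisor.degree D'' = g ∧
        (D'' - (D x + D' x - D0 x)).IsPrincipal ∧
        FffmRep (fibK x) 1 (P.map (ev x)) ((fibK x).dd - D'') := by
  have hpt : ∀ b : R, (∀ o : Option X, fffmPt cl ev o b = 0) → b = 0 :=
    fun b hb => hev b fun x => hb (some x)
  have hloc : IsLocalHom (fffmPt cl ev (none : Option X)) := ‹IsLocalHom cl›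
  let fib : ∀ o : Option X, FffmFib ι (FffmL k K o) (FffmL Fk F o) g
      (fun i j k' p q s => fffmPt cl ev o (cR i j k' p q s)) := fun o =>
    match o with
    | none => fibk
    | some x => fibK x
  obtain ⟨P, hP, hrep⟩ := fffm_add cR (fffmPt cl ev) hpt (none : Option X) fib δ
    (fun o => match o with | none => hδk | some x => hδK x)
    (fun o => match o with | none => Dk | some x => D x)
    (fun o => match o with | none => Dk' | some x => D' x)
    (fun o => match o with | none => Ek | some x => E x)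
    (fun o => match o with | none => D0k | some x => D0 x)
    (fun o => match o with | none => hDk | some x => hD x)
    (fun o => match o with | none => hDkdeg | some x => hDdeg x)
    (fun o => match o with | none => hDk' | some x => hD' x)
    (fun o => match o with | none => hDk'deg | some x => hD'deg x)
    (fun o => match o with | none => hEk | some x => hE x)
    (fun o => match o with | none => hEkdeg | some x => hEdeg x)
    (fun o => match o with | none => hD0k | some x => hD0 x)
    (fun o => match o with | none => hD0kdeg | some x => hD0deg x)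
    GD GD' GE GED GED3
    (fun o => match o with | none => hGDk | some x => hGD x)
    (fun o => match o with | none => hGDk' | some x => hGD' x)
    (fun o => match o with | none => hGEk | some x => hGE x)
    (fun o => match o with | none => hGEDk | some x => hGED x)
    (fun o => match o with | none => hGED3k | some x => hGED3 x)
    hGi hGii
  exact ⟨P, hP, hrep none, fun x => hrep (some x)⟩

end Two

end Fermat.Agent.FF
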